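import Fermat.Agent.S55.H953.LocalNormIndex

/-!
# S55 / local norm index theorem for finite extensions of `ℚ_[q]` (Mathlib-only statement)

For `K` a finite extension of `ℚ_[q]` and `L/K` a finite cyclic Galois extension:
`[Kˣ : N_{L/K}(Lˣ)] = [L : K]`.
-/

set_option autoImplicit false

namespace Fermat.Agent.S55.H953

/-- **Local norm index theorem** for a complete, locally compact, ultrametric, nontrivially
normed base field `K` and an abstract finite cyclic extension `L/K`. -/
theorem norm_index_eq_finrank_of_proper (K L : Type) [NontriviallyNormedField K]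
    [IsUltrametricDist K] [ProperSpace K] [Field L] [Algebra K L] [FiniteDimensional K L]
    [IsGalois K L] [IsCyclic (L ≃ₐ[K] L)] :
    (Units.map (Algebra.norm K : L →* K)).range.index = Module.finrank K L := by
  letI : NormedField L := spectralNorm.normedField K L
  letI : NormedAlgebra K L := spectralNorm.normedAlgebra K L
  haveI : ProperSpace L := FiniteDimensional.proper K L
  exact norm_index_eq_finrank_of_normed

/-- **Local norm index theorem**: for `K/ℚ_[q]` finite and `L/K` finite cyclic Galois,
`[Kˣ : N_{L/K}(Lˣ)] = [L : K]`. -/
theorem padic_norm_index_eq_finrank (q : ℕ) [Fact q.Prime] (K L : Type) [Field K] [Field L]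
    [Algebra ℚ_[q] K] [FiniteDimensional ℚ_[q] K] [Algebra K L] [FiniteDimensional K L]
    [IsGalois K L] [IsCyclic (L ≃ₐ[K] L)] :
    (Units.map (Algebra.norm K : L →* K)).range.index = Module.finrank K L := by
  letI : NontriviallyNormedField K := spectralNorm.nontriviallyNormedField ℚ_[q] K
  letI : NormedAlgebra ℚ_[q] K := spectralNorm.normedAlgebra ℚ_[q] K
  haveI : IsUltrametricDist K := IsUltrametricDist.of_normedAlgebra ℚ_[q]
  haveI : ProperSpace K := FiniteDimensional.proper ℚ_[q] K
  exact norm_index_eq_finrank_of_proper K L

end Fermat.Agent.S55.H953
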