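import Mathlib

/-!
# S55 / local norm index: successive approximation along a multiplicative filtration

Abstract setting: `L` a proper (locally compact) normed field, `σ` a ring automorphism of `L`
which is an isometry with `σ ^ n = 1`, and `Λ 0 ⊇ Λ 1 ⊇ …` a filtration of `L` by closed bounded
`σ`-stable additive subgroups with `Λ 0 * Λ i ⊆ Λ (i+1)`, elements of `Λ i` of norm `≤ c i`,
`c i → 0`, `c 0 < 1`.  If the additive "cohomology" of the graded pieces vanishes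
(`hTr`, `hSub`), then on `V = 1 + Λ 0`:

* every `σ`-fixed element of `V` is a norm `∏_{j<n} σ^j y` of an element `y ∈ V`;
* every element of `V` of norm `1` is of the form `σ y / y` with `y ∈ V`.
-/

set_option autoImplicit false

namespace Fermat.Agent.S55.H953

open Finset Filter Topology

variable {L : Type*} [NormedField L]

/-- Data of the filtration. -/
structure Filtration (L : Type*) [NormedField L] (σ : L ≃+* L) (n : ℕ) where
  /-- the filtration -/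
  Λ : ℕ → AddSubgroup L
  /-- bounds for the norms -/
  c : ℕ → ℝ
  anti : ∀ i, Λ (i + 1) ≤ Λ i
  mul_mem : ∀ i x y, x ∈ Λ 0 → y ∈ Λ i → x * y ∈ Λ (i + 1)
  closed : ∀ i, IsClosed (Λ i : Set L)
  norm_le : ∀ i x, x ∈ Λ i → ‖x‖ ≤ c i
  c_tendsto : Tendsto c atTop (𝓝 0)
  c_zero_lt : c 0 < 1
  stable : ∀ i x, x ∈ Λ i → σ x ∈ Λ i
  isom : ∀ x, ‖σ x‖ = ‖x‖
  pow_eq : ∀ x, (σ ^ n) x = x
  hTr : ∀ i a, a ∈ Λ i → σ a = a → ∃ b ∈ Λ i, (∑ j ∈ range n, (σ ^ j) b) - a ∈ Λ (i + 1)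
  hSub : ∀ i a, a ∈ Λ i → (∑ j ∈ range n, (σ ^ j) a) ∈ Λ (i + 1) →
    ∃ b ∈ Λ i, σ b - b - a ∈ Λ (i + 1)

namespace Filtration

variable {σ : L ≃+* L} {n : ℕ} (F : Filtration L σ n)

lemma anti_le {i j : ℕ} (h : i ≤ j) : F.Λ j ≤ F.Λ i := by
  induction h with
  | refl => exact le_rfl
  | step _ ih => exact (F.anti _).trans ih

lemma mem_zero {i : ℕ} {x : L} (hx : x ∈ F.Λ i) : x ∈ F.Λ 0 := F.anti_le (Nat.zero_le i) hx

lemma mul_mem' {i : ℕ} {x y : L} (hx : x ∈ F.Λ i) (hy : y ∈ F.Λ 0) : x * y ∈ F.Λ (i + 1) := by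
  rw [mul_comm]
  exact F.mul_mem i y x hy hx

lemma mul_mem_same {i : ℕ} {x y : L} (hx : x ∈ F.Λ i) (hy : y ∈ F.Λ 0) : x * y ∈ F.Λ i :=
  F.anti i (F.mul_mem' hx hy)

lemma norm_lt_one {x : L} (hx : x ∈ F.Λ 0) : ‖x‖ < 1 :=
  (F.norm_le 0 x hx).trans_lt F.c_zero_lt

lemma one_add_ne_zero {x : L} (hx : x ∈ F.Λ 0) : 1 + x ≠ 0 := by
  intro h
  have : x = -1 := by linear_combination h
  have h1 := F.norm_lt_one hx
  rw [this, norm_neg, norm_one] at h1
  exact lt_irrefl _ h1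

lemma pow_succ_mem {x : L} (hx : x ∈ F.Λ 0) (k : ℕ) : x ^ (k + 1) ∈ F.Λ 0 := by
  induction k with
  | zero => simpa using hx
  | succ k ih =>
    rw [pow_succ]
    exact F.mul_mem_same ih hx

/-- `x / (1 + x) ∈ Λ 0` for `x ∈ Λ 0`, by the geometric series and closedness. -/
lemma div_one_add_mem [CompleteSpace L] {x : L} (hx : x ∈ F.Λ 0) : x / (1 + x) ∈ F.Λ 0 := by
  have hlt : ‖-x‖ < 1 := by rw [norm_neg]; exact F.norm_lt_one hx
  have hsum : HasSum (fun k : ℕ => (-x) ^ k) (1 - (-x))⁻¹ := hasSum_geometric_of_norm_lt_one hlt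
  have hsum2 : HasSum (fun k : ℕ => x * (-x) ^ k) (x * (1 - (-x))⁻¹) := hsum.mul_left x
  have hmem : ∀ s : Finset ℕ, ∑ k ∈ s, x * (-x) ^ k ∈ F.Λ 0 := by
    intro s
    refine AddSubgroup.sum_mem _ (fun k _ => ?_)
    have : x * (-x) ^ k = (-1) ^ k * x ^ (k + 1) := by
      rw [neg_pow, pow_succ]; ring
    rw [this]
    rcases neg_one_pow_eq_or L k with h | h
    · rw [h, one_mul]; exact F.pow_succ_mem hx k
    · rw [h, neg_one_mul]; exact (F.Λ 0).neg_mem (F.pow_succ_mem hx k)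
  have := (F.closed 0).mem_of_tendsto hsum2 (Eventually.of_forall hmem)
  have e : x / (1 + x) = x * (1 - (-x))⁻¹ := by
    rw [div_eq_mul_inv, sub_neg_eq_add]
  rw [e]
  exact this

/-! ### The groups `V i = 1 + Λ i` -/

lemma V_one (i : ℕ) : (1 : L) - 1 ∈ F.Λ i := by
  rw [sub_self]; exact (F.Λ i).zero_mem

lemma V_mul {i : ℕ} {x y : L} (hx : x - 1 ∈ F.Λ i) (hy : y - 1 ∈ F.Λ i) :
    x * y - 1 ∈ F.Λ i := by
  have e : x * y - 1 = (x - 1) * (y - 1) + (x - 1) + (y - 1) := by ring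
  rw [e]
  exact (F.Λ i).add_mem ((F.Λ i).add_mem (F.mul_mem_same hx (F.mem_zero hy)) hx) hy

lemma V_ne_zero {x : L} (hx : x - 1 ∈ F.Λ 0) : x ≠ 0 := by
  have := F.one_add_ne_zero hx
  simpa using this

lemma V_inv [CompleteSpace L] {i : ℕ} {x : L} (hx : x - 1 ∈ F.Λ i) : x⁻¹ - 1 ∈ F.Λ i := by
  have hx0 : x ≠ 0 := F.V_ne_zero (F.mem_zero hx)
  set a := x - 1 with ha
  have hxa : x = 1 + a := by rw [ha]; ring
  have h0 : a / (1 + a) ∈ F.Λ 0 := F.div_one_add_mem (F.mem_zero hx)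
  have h1a : (1 + a) ≠ 0 := by rw [← hxa]; exact hx0
  have e : x⁻¹ - 1 = -(a - a * (a / (1 + a))) := by
    rw [hxa]; field_simp; ring
  rw [e]
  exact (F.Λ i).neg_mem ((F.Λ i).sub_mem hx (F.mul_mem_same hx h0))

lemma V_div [CompleteSpace L] {i : ℕ} {x y : L} (hx : x - 1 ∈ F.Λ i) (hy : y - 1 ∈ F.Λ i) :
    x / y - 1 ∈ F.Λ i := by
  rw [div_eq_mul_inv]
  exact F.V_mul hx (F.V_inv hy)

lemma V_prod {i : ℕ} {ι : Type*} (s : Finset ι) (x : ι → L) (hx : ∀ j ∈ s, x j - 1 ∈ F.Λ i) :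
    (∏ j ∈ s, x j) - 1 ∈ F.Λ i := by
  classical
  induction s using Finset.induction_on with
  | empty => simp
  | insert a s ha ih =>
    rw [Finset.prod_insert ha]
    exact F.V_mul (hx a (Finset.mem_insert_self a s))
      (ih (fun j hj => hx j (Finset.mem_insert_of_mem hj)))

/-- `u / w ∈ Λ i` for `u ∈ Λ i` and `w ∈ V 0`. -/
lemma div_mem [CompleteSpace L] {i : ℕ} {u w : L} (hu : u ∈ F.Λ i) (hw : w - 1 ∈ F.Λ 0) :
    u / w ∈ F.Λ i := by
  have e : u / w = u + u * (w⁻¹ - 1) := by rw [div_eq_mul_inv]; ring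
  rw [e]
  exact (F.Λ i).add_mem hu (F.mul_mem_same hu (F.V_inv hw))

/-- product expansion: `∏ (1 + x j) ≡ 1 + ∑ x j` modulo `Λ (i+1)` for `x j ∈ Λ i`. -/
lemma prod_one_add_sub {i : ℕ} {ι : Type*} (s : Finset ι) (x : ι → L)
    (hx : ∀ j ∈ s, x j ∈ F.Λ i) :
    (∏ j ∈ s, (1 + x j)) - 1 - ∑ j ∈ s, x j ∈ F.Λ (i + 1) := by
  classical
  induction s using Finset.induction_on with
  | empty => simp
  | insert a s ha ih =>
    rw [Finset.prod_insert ha, Finset.sum_insert ha]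
    have hxa : x a ∈ F.Λ i := hx a (Finset.mem_insert_self a s)
    have hs : ∀ j ∈ s, x j ∈ F.Λ i := fun j hj => hx j (Finset.mem_insert_of_mem hj)
    have ih' := ih hs
    have hP : (∏ j ∈ s, (1 + x j)) - 1 ∈ F.Λ i :=
      F.V_prod s (fun j => 1 + x j) (fun j hj => by simpa using hs j hj)
    have e : (1 + x a) * ∏ j ∈ s, (1 + x j) - 1 - (x a + ∑ j ∈ s, x j) =
        ((∏ j ∈ s, (1 + x j)) - 1 - ∑ j ∈ s, x j) + ((∏ j ∈ s, (1 + x j)) - 1) * x a := by ring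
    rw [e]
    exact (F.Λ (i + 1)).add_mem ih' (F.mul_mem' hP (F.mem_zero hxa))

/-! ### The automorphism -/

lemma stable_pow {i : ℕ} {x : L} (hx : x ∈ F.Λ i) (j : ℕ) : (σ ^ j) x ∈ F.Λ i := by
  induction j with
  | zero => simpa using hx
  | succ j ih =>
    rw [pow_succ']
    exact F.stable i _ ih

lemma V_stable {i : ℕ} {x : L} (hx : x - 1 ∈ F.Λ i) (j : ℕ) : (σ ^ j) x - 1 ∈ F.Λ i := by
  have := F.stable_pow hx j
  simpa using this

include F in
lemma isom_pow (j : ℕ) (x : L) : ‖(σ ^ j) x‖ = ‖x‖ := by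
  induction j with
  | zero => simp
  | succ j ih =>
    rw [pow_succ']
    exact (F.isom _).trans ih

/-- the norm `∏_{j<n} σ^j` -/
noncomputable def nm (_F : Filtration L σ n) (x : L) : L := ∏ j ∈ range n, (σ ^ j) x

/-- the trace `∑_{j<n} σ^j` -/
noncomputable def tr (_F : Filtration L σ n) (x : L) : L := ∑ j ∈ range n, (σ ^ j) x

lemma nm_mul (x y : L) : F.nm (x * y) = F.nm x * F.nm y := by
  simp [nm, Finset.prod_mul_distrib]

lemma nm_one : F.nm 1 = 1 := by simp [nm]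

lemma nm_inv (x : L) : F.nm x⁻¹ = (F.nm x)⁻¹ := by
  simp [nm, map_inv₀]

lemma nm_div (x y : L) : F.nm (x / y) = F.nm x / F.nm y := by
  rw [div_eq_mul_inv, nm_mul, nm_inv, div_eq_mul_inv]

lemma prod_shift {M : Type*} [CommMonoid M] (f : ℕ → M) (m : ℕ) (h : f m = f 0) :
    ∏ j ∈ range m, f (j + 1) = ∏ j ∈ range m, f j := by
  cases m with
  | zero => simp
  | succ m =>
    rw [Finset.prod_range_succ (fun j => f (j + 1)) m, Finset.prod_range_succ' f m, h]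

lemma sum_shift {M : Type*} [AddCommMonoid M] (f : ℕ → M) (m : ℕ) (h : f m = f 0) :
    ∑ j ∈ range m, f (j + 1) = ∑ j ∈ range m, f j := by
  cases m with
  | zero => simp
  | succ m =>
    rw [Finset.sum_range_succ (fun j => f (j + 1)) m, Finset.sum_range_succ' f m, h]

lemma sigma_nm (x : L) : σ (F.nm x) = F.nm x := by
  unfold nm
  rw [map_prod]
  have h : ∀ j, σ ((σ ^ j) x) = (σ ^ (j + 1)) x := fun j => by rw [pow_succ']; rfl
  simp_rw [h]
  exact prod_shift (fun j => (σ ^ j) x) n (by simpa using F.pow_eq x)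

lemma sigma_tr (x : L) : σ (F.tr x) = F.tr x := by
  unfold tr
  rw [map_sum]
  have h : ∀ j, σ ((σ ^ j) x) = (σ ^ (j + 1)) x := fun j => by rw [pow_succ']; rfl
  simp_rw [h]
  exact sum_shift (fun j => (σ ^ j) x) n (by simpa using F.pow_eq x)

lemma nm_sigma (x : L) : F.nm (σ x) = F.nm x := by
  unfold nm
  have h : ∀ j, (σ ^ j) (σ x) = (σ ^ (j + 1)) x := fun j => by rw [pow_succ]; rfl
  simp_rw [h]
  exact prod_shift (fun j => (σ ^ j) x) n (by simpa using F.pow_eq x)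

lemma norm_nm (x : L) : ‖F.nm x‖ = ‖x‖ ^ n := by
  unfold nm
  rw [norm_prod, Finset.prod_congr rfl (fun j _ => F.isom_pow j x)]
  simp

include F in
lemma continuous_sigma_pow (j : ℕ) : Continuous fun x : L => (σ ^ j) x := by
  have : Isometry fun x : L => (σ ^ j) x := by
    refine Isometry.of_dist_eq (fun x y => ?_)
    rw [dist_eq_norm, dist_eq_norm, ← map_sub, F.isom_pow]
  exact this.continuous

lemma continuous_nm : Continuous F.nm := by
  unfold nm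
  exact continuous_finsetProd _ (fun j _ => F.continuous_sigma_pow j)

/-- `nm (1 + b) ≡ 1 + tr b` modulo `Λ (i+1)`. -/
lemma nm_one_add_sub {i : ℕ} {b : L} (hb : b ∈ F.Λ i) :
    F.nm (1 + b) - 1 - F.tr b ∈ F.Λ (i + 1) := by
  unfold nm tr
  simp only [map_add, map_one]
  exact F.prod_one_add_sub (range n) (fun j => (σ ^ j) b) (fun j _ => F.stable_pow hb j)

lemma V_nm {i : ℕ} {x : L} (hx : x - 1 ∈ F.Λ i) : F.nm x - 1 ∈ F.Λ i :=
  F.V_prod _ _ (fun j _ => F.V_stable hx j)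

/-- one step of the approximation for `Ĥ⁰`. -/
lemma step_fixed [CompleteSpace L] {i : ℕ} {x : L} (hx : x - 1 ∈ F.Λ i) (hσ : σ x = x) :
    ∃ y, y - 1 ∈ F.Λ i ∧ x / F.nm y - 1 ∈ F.Λ (i + 1) ∧ σ (x / F.nm y) = x / F.nm y := by
  have hσa : σ (x - 1) = x - 1 := by rw [map_sub, map_one, hσ]
  obtain ⟨b, hb, hb'⟩ := F.hTr i (x - 1) hx hσa
  refine ⟨1 + b, by simpa using hb, ?_, ?_⟩
  · have h1 := F.nm_one_add_sub hb
    have hN : F.nm (1 + b) - 1 ∈ F.Λ 0 := F.mem_zero (F.V_nm (by simpa using hb))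
    have hN0 : F.nm (1 + b) ≠ 0 := F.V_ne_zero hN
    have e : x / F.nm (1 + b) - 1 =
        (-(F.nm (1 + b) - 1 - F.tr b) - (F.tr b - (x - 1))) / F.nm (1 + b) := by
      field_simp; ring
    rw [e]
    refine F.div_mem ((F.Λ (i + 1)).sub_mem ((F.Λ (i + 1)).neg_mem h1) ?_) hN
    exact hb'
  · rw [map_div₀, hσ, F.sigma_nm]

/-- one step of the approximation for `Ĥ⁻¹`. -/
lemma step_norm_one [CompleteSpace L] {i : ℕ} {x : L} (hx : x - 1 ∈ F.Λ i) (hN : F.nm x = 1) :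
    ∃ y, y - 1 ∈ F.Λ i ∧ x / (σ y / y) - 1 ∈ F.Λ (i + 1) ∧ F.nm (x / (σ y / y)) = 1 := by
  have h1 := F.nm_one_add_sub hx
  have htr : F.tr (x - 1) ∈ F.Λ (i + 1) := by
    have e : F.tr (x - 1) = -(F.nm (1 + (x - 1)) - 1 - F.tr (x - 1)) := by
      have : (1 : L) + (x - 1) = x := by ring
      rw [this, hN]; ring
    rw [e]
    exact (F.Λ (i + 1)).neg_mem h1
  obtain ⟨b, hb, hb'⟩ := F.hSub i (x - 1) hx htr
  have hy : (1 + b) - 1 ∈ F.Λ i := by simpa using hb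
  have hy0 : (1 + b) ≠ 0 := F.V_ne_zero (F.mem_zero hy)
  have hσy : σ (1 + b) - 1 ∈ F.Λ i := by
    have := F.V_stable hy 1
    simpa using this
  have hσy0 : σ (1 + b) ≠ 0 := F.V_ne_zero (F.mem_zero hσy)
  refine ⟨1 + b, hy, ?_, ?_⟩
  · -- x / (σ y / y) - 1 = (x * y - σ y) / σ y
    have e : x / (σ (1 + b) / (1 + b)) - 1 =
        (-(σ b - b - (x - 1)) + (x - 1) * b) / σ (1 + b) := by
      rw [map_add, map_one] at hσy0 ⊢
      field_simp
      ring
    rw [e]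
    refine F.div_mem ((F.Λ (i + 1)).add_mem ((F.Λ (i + 1)).neg_mem hb') ?_) (F.mem_zero hσy)
    exact F.mul_mem' hx (F.mem_zero hb)
  · rw [nm_div, nm_div, F.nm_sigma, hN, div_self, div_one]
    exact F.V_ne_zero (F.mem_zero (F.V_nm hy))

lemma approx_fixed [CompleteSpace L] {x : L} (hx : x - 1 ∈ F.Λ 0) (hσ : σ x = x) (k : ℕ) :
    ∃ Y, Y - 1 ∈ F.Λ 0 ∧ x / F.nm Y - 1 ∈ F.Λ k ∧ σ (x / F.nm Y) = x / F.nm Y := by
  induction k with
  | zero =>
    refine ⟨1, F.V_one 0, ?_, ?_⟩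
    · rw [F.nm_one, div_one]; exact hx
    · rw [F.nm_one, div_one]; exact hσ
  | succ k ih =>
    obtain ⟨Y, hY, hY', hYσ⟩ := ih
    obtain ⟨y, hy, hy', hyσ⟩ := F.step_fixed hY' hYσ
    have e : x / F.nm (Y * y) = x / F.nm Y / F.nm y := by
      rw [F.nm_mul, div_div]
    refine ⟨Y * y, F.V_mul hY (F.mem_zero hy), ?_, ?_⟩
    · rw [e]; exact hy'
    · rw [e]; exact hyσ

lemma approx_norm_one [CompleteSpace L] {x : L} (hx : x - 1 ∈ F.Λ 0) (hN : F.nm x = 1) (k : ℕ) :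
    ∃ Y, Y - 1 ∈ F.Λ 0 ∧ x / (σ Y / Y) - 1 ∈ F.Λ k ∧ F.nm (x / (σ Y / Y)) = 1 := by
  induction k with
  | zero =>
    refine ⟨1, F.V_one 0, ?_, ?_⟩
    · rw [map_one, div_one, div_one]; exact hx
    · rw [map_one, div_one, div_one]; exact hN
  | succ k ih =>
    obtain ⟨Y, hY, hY', hYN⟩ := ih
    obtain ⟨y, hy, hy', hyN⟩ := F.step_norm_one hY' hYN
    have hY0 : Y ≠ 0 := F.V_ne_zero hY
    have hy0 : y ≠ 0 := F.V_ne_zero (F.mem_zero hy)
    have hσY0 : σ Y ≠ 0 := by simpa using hY0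
    have hσy0 : σ y ≠ 0 := by simpa using hy0
    have e : x / (σ (Y * y) / (Y * y)) = x / (σ Y / Y) / (σ y / y) := by
      rw [map_mul]
      field_simp
    refine ⟨Y * y, F.V_mul hY (F.mem_zero hy), ?_, ?_⟩
    · rw [e]; exact hy'
    · rw [e]; exact hyN

lemma isCompact_V [ProperSpace L] : IsCompact {y : L | y - 1 ∈ F.Λ 0} := by
  refine IsCompact.of_isClosed_subset (isCompact_closedBall (0 : L) 2) ?_ ?_
  · exact (F.closed 0).preimage (continuous_id.sub continuous_const)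
  · intro y hy
    rw [mem_closedBall_zero_iff]
    have h1 : ‖y - 1‖ < 1 := F.norm_lt_one hy
    calc ‖y‖ = ‖(y - 1) + 1‖ := by rw [sub_add_cancel]
      _ ≤ ‖y - 1‖ + ‖(1 : L)‖ := norm_add_le _ _
      _ ≤ 1 + 1 := by rw [norm_one]; linarith
      _ = 2 := by norm_num

lemma tendsto_of_mem {z : ℕ → L} (hz : ∀ k, z k - 1 ∈ F.Λ k) : Tendsto z atTop (𝓝 1) := by
  have h0 : Tendsto (fun k => z k - 1) atTop (𝓝 0) := by
    refine squeeze_zero_norm (fun k => F.norm_le k _ (hz k)) F.c_tendsto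
  have := h0.add_const 1
  simpa using this

/-- **Every `σ`-fixed element of `V = 1 + Λ 0` is a norm from `V`.** -/
theorem exists_nm_eq [ProperSpace L] {x : L} (hx : x - 1 ∈ F.Λ 0) (hσ : σ x = x) :
    ∃ y, y - 1 ∈ F.Λ 0 ∧ F.nm y = x := by
  have hx0 : x ≠ 0 := F.V_ne_zero hx
  choose Y hY hY' _ using F.approx_fixed hx hσ
  have hcl : IsClosed (F.nm '' {y : L | y - 1 ∈ F.Λ 0}) :=
    (F.isCompact_V.image F.continuous_nm).isClosed
  have hlim : Tendsto (fun k => F.nm (Y k)) atTop (𝓝 x) := by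
    have h1 : Tendsto (fun k => x / F.nm (Y k)) atTop (𝓝 1) := F.tendsto_of_mem hY'
    have h2 : Tendsto (fun k => x / (x / F.nm (Y k))) atTop (𝓝 (x / 1)) :=
      tendsto_const_nhds.div h1 one_ne_zero
    rw [div_one] at h2
    refine h2.congr (fun k => ?_)
    have hN0 : F.nm (Y k) ≠ 0 := F.V_ne_zero (F.V_nm (hY k))
    field_simp
  obtain ⟨y, hy, hyx⟩ := hcl.mem_of_tendsto hlim (Eventually.of_forall fun k => ⟨Y k, hY k, rfl⟩)
  exact ⟨y, hy, hyx⟩

/-- **Every element of `V = 1 + Λ 0` of norm one is of the form `σ y / y` with `y ∈ V`.** -/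
theorem exists_div_eq [ProperSpace L] {x : L} (hx : x - 1 ∈ F.Λ 0) (hN : F.nm x = 1) :
    ∃ y, y - 1 ∈ F.Λ 0 ∧ σ y / y = x := by
  have hx0 : x ≠ 0 := F.V_ne_zero hx
  choose Y hY hY' _ using F.approx_norm_one hx hN
  have hcont : ContinuousOn (fun y : L => σ y / y) {y : L | y - 1 ∈ F.Λ 0} := by
    have hσc : Continuous fun y : L => σ y := by
      have := F.continuous_sigma_pow 1
      simpa using this
    exact hσc.continuousOn.div continuousOn_id (fun y hy => F.V_ne_zero hy)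
  have hcl : IsClosed ((fun y : L => σ y / y) '' {y : L | y - 1 ∈ F.Λ 0}) :=
    (F.isCompact_V.image_of_continuousOn hcont).isClosed
  have hlim : Tendsto (fun k => σ (Y k) / Y k) atTop (𝓝 x) := by
    have h1 : Tendsto (fun k => x / (σ (Y k) / Y k)) atTop (𝓝 1) := F.tendsto_of_mem hY'
    have h2 : Tendsto (fun k => x / (x / (σ (Y k) / Y k))) atTop (𝓝 (x / 1)) :=
      tendsto_const_nhds.div h1 one_ne_zero
    rw [div_one] at h2
    refine h2.congr (fun k => ?_)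
    have hY0 : Y k ≠ 0 := F.V_ne_zero (hY k)
    have hσY0 : σ (Y k) ≠ 0 := by simpa using hY0
    field_simp
  obtain ⟨y, hy, hyx⟩ := hcl.mem_of_tendsto hlim (Eventually.of_forall fun k => ⟨Y k, hY k, rfl⟩)
  exact ⟨y, hy, hyx⟩

end Filtration

end Fermat.Agent.S55.H953
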