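import Mathlib

/-!
# S55 / bridge: the fraction field of a complete DVR with finite residue field is a
locally compact ultrametric normed field

`A` a discrete valuation ring, `F = Frac A`.  We put on `F` the norm `‖x‖ = 2 ^ (-v(x))`
(Mathlib's `adicAbv`), and show: ultrametric, nontrivial; if `A` is adically complete then `F`
is complete; if moreover the residue field is finite then `F` is proper.
-/

set_option autoImplicit false

namespace Fermat.Agent.S55.H953

open IsDedekindDomain IsDedekindDomain.HeightOneSpectrum WithZeroMulInt NNReal Filter Topology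

section Abv

variable (A F : Type*) [CommRing A] [IsDomain A] [IsDiscreteValuationRing A]
  [Field F] [Algebra A F] [IsFractionRing A F]

lemma one_lt_two_nnreal : (1 : ℝ≥0) < 2 := by norm_num

/-- the `𝔪`-adic absolute value on `F` with base `2` -/
noncomputable def dvrAbv : AbsoluteValue F ℝ :=
  (IsDiscreteValuationRing.maximalIdeal A).adicAbv (K := F) one_lt_two_nnreal

lemma dvrAbv_def (x : F) : dvrAbv A F x =
    ((toNNReal (ne_zero_of_lt one_lt_two_nnreal)
      ((IsDiscreteValuationRing.maximalIdeal A).valuation F x) : ℝ≥0) : ℝ) := rfl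

lemma dvrAbv_algebraMap_le_one (a : A) : dvrAbv A F (algebraMap A F a) ≤ 1 :=
  (IsDiscreteValuationRing.maximalIdeal A).adicAbv_coe_le_one one_lt_two_nnreal a

lemma dvrAbv_nonarch : IsNonarchimedean (dvrAbv A F) :=
  (IsDiscreteValuationRing.maximalIdeal A).isNonarchimedean_adicAbv one_lt_two_nnreal

lemma exists_of_dvrAbv_le_one {x : F} (h : dvrAbv A F x ≤ 1) : ∃ a : A, algebraMap A F a = x := by
  apply IsDiscreteValuationRing.exists_lift_of_le_one
  rw [dvrAbv_def] at h
  have h' : toNNReal (ne_zero_of_lt one_lt_two_nnreal)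
      ((IsDiscreteValuationRing.maximalIdeal A).valuation F x) ≤ 1 := by exact_mod_cast h
  exact (toNNReal_le_one_iff one_lt_two_nnreal).1 h'

lemma toNNReal_exp_neg (n : ℕ) :
    toNNReal (ne_zero_of_lt one_lt_two_nnreal) (WithZero.exp (-(n : ℤ))) = (2 : ℝ≥0)⁻¹ ^ n := by
  rw [toNNReal_neg_apply _ (WithZero.exp_ne_zero)]
  have : WithZero.unzero (WithZero.exp_ne_zero (a := -(n : ℤ))) =
      Multiplicative.ofAdd (-(n : ℤ)) := by
    apply WithZero.coe_injective
    rw [WithZero.coe_unzero]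
    rfl
  rw [this, toAdd_ofAdd, zpow_neg, zpow_natCast, inv_pow]

lemma dvrAbv_algebraMap_le_pow_iff (a : A) (n : ℕ) :
    dvrAbv A F (algebraMap A F a) ≤ (2 : ℝ)⁻¹ ^ n ↔ a ∈ IsLocalRing.maximalIdeal A ^ n := by
  have h1 : a ∈ IsLocalRing.maximalIdeal A ^ n ↔
      (IsDiscreteValuationRing.maximalIdeal A).intValuation a ≤ WithZero.exp (-(n : ℤ)) :=
    ((IsDiscreteValuationRing.maximalIdeal A).intValuation_le_pow_iff_mem a n).symm
  rw [h1, dvrAbv_def, valuation_of_algebraMap,
    ← (toNNReal_strictMono one_lt_two_nnreal).le_iff_le, toNNReal_exp_neg]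
  constructor
  · intro h
    exact_mod_cast h
  · intro h
    exact_mod_cast h

/-- the normed field structure on `F` given by the `𝔪`-adic absolute value -/
@[reducible] noncomputable def dvrNormedField : NormedField F := (dvrAbv A F).toNormedField

lemma dvr_norm_def (x : F) : @norm F (dvrNormedField A F).toNorm x = dvrAbv A F x := rfl

lemma dvr_exists_one_lt_norm : ∃ x : F, 1 < @norm F (dvrNormedField A F).toNorm x := by
  obtain ⟨π, hπ⟩ := IsDiscreteValuationRing.exists_irreducible A
  have hπ0 : π ≠ 0 := hπ.ne_zero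
  have hmem : π ∈ (IsDiscreteValuationRing.maximalIdeal A).asIdeal := by
    change π ∈ IsLocalRing.maximalIdeal A
    rw [IsLocalRing.mem_maximalIdeal, mem_nonunits_iff]
    exact hπ.not_isUnit
  have hlt : dvrAbv A F (algebraMap A F π) < 1 :=
    ((IsDiscreteValuationRing.maximalIdeal A).adicAbv_coe_lt_one_iff one_lt_two_nnreal π).2 hmem
  have hne : algebraMap A F π ≠ 0 := by
    rw [Ne, map_eq_zero_iff _ (IsFractionRing.injective A F)]
    exact hπ0
  refine ⟨(algebraMap A F π)⁻¹, ?_⟩
  rw [dvr_norm_def, map_inv₀]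
  exact (one_lt_inv₀ ((dvrAbv A F).pos hne)).2 hlt

/-- the nontrivially normed field structure on `F` -/
@[reducible] noncomputable def dvrNontriviallyNormedField : NontriviallyNormedField F :=
  { dvrNormedField A F with non_trivial := dvr_exists_one_lt_norm A F }

lemma dvr_isUltrametricDist :
    @IsUltrametricDist F (dvrNormedField A F).toMetricSpace.toDist := by
  letI := dvrNormedField A F
  exact IsUltrametricDist.isUltrametricDist_of_isNonarchimedean_norm (dvrAbv_nonarch A F)

theorem dvr_completeSpace [IsAdicComplete (IsLocalRing.maximalIdeal A) A] :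
    @CompleteSpace F (dvrNormedField A F).toUniformSpace := by
  letI := dvrNormedField A F
  refine Metric.complete_of_cauchySeq_tendsto (fun u hu => ?_)
  obtain ⟨N₀, hN₀⟩ := Metric.cauchySeq_iff'.1 hu 1 one_pos
  have hw : ∀ n, dvrAbv A F (u (n + N₀) - u N₀) ≤ 1 := by
    intro n
    have := hN₀ (n + N₀) (Nat.le_add_left _ _)
    rw [dist_eq_norm] at this
    exact this.le
  choose a ha using fun n => exists_of_dvrAbv_le_one A F (hw n)
  have hcau : ∀ k : ℕ, ∃ M, ∀ m ≥ M, ∀ n ≥ M, a m - a n ∈ IsLocalRing.maximalIdeal A ^ k := by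
    intro k
    obtain ⟨M, hM⟩ := Metric.cauchySeq_iff.1 hu ((2 : ℝ)⁻¹ ^ k) (by positivity)
    refine ⟨M, fun m hm n hn => ?_⟩
    rw [← dvrAbv_algebraMap_le_pow_iff A F, map_sub, ha, ha]
    have := hM (m + N₀) (by omega) (n + N₀) (by omega)
    rw [dist_eq_norm] at this
    have e : u (m + N₀) - u N₀ - (u (n + N₀) - u N₀) = u (m + N₀) - u (n + N₀) := by ring
    rw [e]
    exact this.le
  choose M hM using hcau
  let M' : ℕ → ℕ := fun k => (Finset.range (k + 1)).sup M
  have hM' : ∀ j k, j ≤ k → M j ≤ M' k := fun j k hjk =>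
    Finset.le_sup (f := M) (Finset.mem_range.2 (Nat.lt_succ_of_le hjk))
  have hM'mono : ∀ j k, j ≤ k → M' j ≤ M' k := fun j k hjk =>
    Finset.sup_mono (Finset.range_mono (Nat.succ_le_succ hjk))
  have hf : ∀ {m n : ℕ}, m ≤ n →
      a (M' m) ≡ a (M' n) [SMOD (IsLocalRing.maximalIdeal A ^ m • ⊤ : Submodule A A)] := by
    intro m n hmn
    rw [SModEq.sub_mem, smul_eq_mul, Ideal.mul_top]
    exact hM m _ (hM' m m le_rfl) _ ((hM' m m le_rfl).trans (hM'mono m n hmn))
  obtain ⟨L, hL⟩ := IsPrecomplete.prec (IsAdicComplete.toIsPrecomplete) hf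
  refine ⟨u N₀ + algebraMap A F L, ?_⟩
  rw [Metric.tendsto_atTop]
  intro ε hε
  obtain ⟨k, hk⟩ := exists_pow_lt_of_lt_one hε (by norm_num : (2 : ℝ)⁻¹ < 1)
  refine ⟨M' k + N₀, fun n hn => ?_⟩
  obtain ⟨n', rfl⟩ : ∃ n', n = n' + N₀ := ⟨n - N₀, by omega⟩
  have hn' : M' k ≤ n' := by omega
  rw [dist_eq_norm]
  have e : u (n' + N₀) - (u N₀ + algebraMap A F L) = algebraMap A F (a n' - L) := by
    rw [map_sub, ha]
    ring
  rw [e]
  refine lt_of_le_of_lt ((dvrAbv_algebraMap_le_pow_iff A F _ k).2 ?_) hk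
  have h1 : a n' - a (M' k) ∈ IsLocalRing.maximalIdeal A ^ k :=
    hM k _ ((hM' k k le_rfl).trans hn') _ (hM' k k le_rfl)
  have h2 : a (M' k) - L ∈ IsLocalRing.maximalIdeal A ^ k := by
    have := hL k
    rwa [SModEq.sub_mem, smul_eq_mul, Ideal.mul_top] at this
  have e2 : a n' - L = (a n' - a (M' k)) + (a (M' k) - L) := by ring
  rw [e2]
  exact Ideal.add_mem _ h1 h2

theorem dvr_properSpace [IsAdicComplete (IsLocalRing.maximalIdeal A) A]
    [Finite (IsLocalRing.ResidueField A)] :
    @ProperSpace F (dvrNormedField A F).toMetricSpace.toPseudoMetricSpace := by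
  letI := dvrNontriviallyNormedField A F
  haveI : CompleteSpace F := dvr_completeSpace A F
  suffices LocallyCompactSpace F from .of_nontriviallyNormedField_of_weaklyLocallyCompactSpace F
  have hmem : Metric.closedBall (0 : F) 1 ∈ 𝓝 (0 : F) := Metric.closedBall_mem_nhds _ zero_lt_one
  refine IsCompact.locallyCompactSpace_of_mem_nhds_of_addGroup ?_ hmem
  rw [isCompact_iff_totallyBounded_isComplete]
  refine ⟨?_, Metric.isClosed_closedBall.isComplete⟩
  refine Metric.totallyBounded_iff.2 (fun ε hε => ?_)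
  obtain ⟨k, hk⟩ := exists_pow_lt_of_lt_one hε (by norm_num : (2 : ℝ)⁻¹ < 1)
  haveI : Finite (A ⧸ IsLocalRing.maximalIdeal A) :=
    inferInstanceAs (Finite (IsLocalRing.ResidueField A))
  haveI : Finite (A ⧸ IsLocalRing.maximalIdeal A ^ k) :=
    Ideal.finite_quotient_pow (IsNoetherian.noetherian _) k
  refine ⟨Set.range (fun q : A ⧸ IsLocalRing.maximalIdeal A ^ k =>
    algebraMap A F (Quotient.out q)), Set.finite_range _, ?_⟩
  intro x hx
  rw [mem_closedBall_zero_iff] at hx
  obtain ⟨a, rfl⟩ := exists_of_dvrAbv_le_one A F hx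
  refine Set.mem_iUnion₂.2 ⟨algebraMap A F (Quotient.out (Ideal.Quotient.mk
    (IsLocalRing.maximalIdeal A ^ k) a)), ⟨_, rfl⟩, ?_⟩
  rw [Metric.mem_ball, dist_eq_norm, ← map_sub]
  refine lt_of_le_of_lt ((dvrAbv_algebraMap_le_pow_iff A F _ k).2 ?_) hk
  rw [← Ideal.Quotient.eq]
  exact (Quotient.out_eq _).symm

end Abv

end Fermat.Agent.S55.H953
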