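import Mathlib

/-!
# S55 / local norm index: discreteness of the value group and compactness of the units

`L` is a proper (locally compact) ultrametric normed field with nontrivial norm.

* `exists_uniformizer` : there is `ϖ ≠ 0` of maximal norm `< 1`;
* `exists_zpow_norm_eq` : every nonzero element has norm `‖ϖ‖ ^ k`, `k : ℤ`;
* `valZ` : the normalised valuation `Lˣ →* Multiplicative ℤ`;
* `finiteIndex_of_ball` : a subgroup of the norm-one units containing a ball around `1` has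
  finite index in the group of norm-one units.
-/

set_option autoImplicit false

namespace Fermat.Agent.S55.H953

open Metric

variable {L : Type*} [NormedField L] [IsUltrametricDist L] [ProperSpace L]

/-- there is an element of maximal norm `< 1` -/
lemma exists_uniformizer (hnt : ∃ x : L, x ≠ 0 ∧ ‖x‖ < 1) :
    ∃ ϖ : L, ϖ ≠ 0 ∧ ‖ϖ‖ < 1 ∧ ∀ x : L, ‖x‖ < 1 → ‖x‖ ≤ ‖ϖ‖ := by
  have hcl : IsClosed (ball (0 : L) 1) := IsUltrametricDist.isClosed_ball 0 1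
  have hcomp : IsCompact (ball (0 : L) 1) :=
    IsCompact.of_isClosed_subset (isCompact_closedBall (0 : L) 1) hcl ball_subset_closedBall
  obtain ⟨ϖ, hϖ, hmax⟩ := hcomp.exists_isMaxOn ⟨0, mem_ball_self one_pos⟩
    (continuous_norm.continuousOn)
  rw [mem_ball_zero_iff] at hϖ
  obtain ⟨x₀, hx₀, hx₀'⟩ := hnt
  have h1 : ∀ x : L, ‖x‖ < 1 → ‖x‖ ≤ ‖ϖ‖ := fun x hx => hmax (mem_ball_zero_iff.2 hx)
  refine ⟨ϖ, ?_, hϖ, h1⟩
  intro h0
  have := h1 x₀ hx₀'
  rw [h0, norm_zero] at this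
  exact hx₀ (norm_le_zero_iff.1 this)

omit [IsUltrametricDist L] [ProperSpace L] in
lemma exists_zpow_norm_eq {ϖ : L} (h0 : ϖ ≠ 0) (h1 : ‖ϖ‖ < 1)
    (hmax : ∀ x : L, ‖x‖ < 1 → ‖x‖ ≤ ‖ϖ‖) {x : L} (hx : x ≠ 0) :
    ∃ k : ℤ, ‖x‖ = ‖ϖ‖ ^ k := by
  have hr0 : 0 < ‖ϖ‖ := norm_pos_iff.2 h0
  have hinv : 1 < ‖ϖ‖⁻¹ := (one_lt_inv₀ hr0).2 h1
  obtain ⟨m, hm1, hm2⟩ := exists_mem_Ico_zpow (norm_pos_iff.2 hx) hinv
  -- (‖ϖ‖⁻¹)^m ≤ ‖x‖ < (‖ϖ‖⁻¹)^(m+1)
  refine ⟨-m, ?_⟩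
  have hy : ‖x * ϖ ^ m‖ = ‖x‖ * ‖ϖ‖ ^ m := by rw [norm_mul, norm_zpow]
  have hpos : 0 < ‖ϖ‖ ^ m := zpow_pos hr0 m
  have hge : 1 ≤ ‖x * ϖ ^ m‖ := by
    rw [hy]
    rw [inv_zpow, ← zpow_neg] at hm1
    have := mul_le_mul_of_nonneg_right hm1 hpos.le
    rwa [← zpow_add₀ hr0.ne', neg_add_cancel, zpow_zero] at this
  have hlt : ‖x * ϖ ^ m * ϖ‖ < 1 := by
    rw [norm_mul, hy]
    rw [inv_zpow, ← zpow_neg] at hm2
    have := mul_lt_mul_of_pos_right hm2 (zpow_pos hr0 (m + 1))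
    rwa [← zpow_add₀ hr0.ne', neg_add_cancel, zpow_zero, zpow_add₀ hr0.ne', zpow_one,
      ← mul_assoc] at this
  have hle : ‖x * ϖ ^ m * ϖ‖ ≤ ‖ϖ‖ := hmax _ hlt
  rw [norm_mul] at hle
  have hle1 : ‖x * ϖ ^ m‖ ≤ 1 := by
    by_contra hcon
    rw [not_le] at hcon
    have := mul_lt_mul_of_pos_right hcon hr0
    rw [one_mul] at this
    exact absurd hle (not_le.2 this)
  have heq : ‖x‖ * ‖ϖ‖ ^ m = 1 := by rw [← hy]; exact le_antisymm hle1 hge
  rw [zpow_neg]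
  field_simp
  exact heq

section Val

omit [IsUltrametricDist L] [ProperSpace L]

variable {ϖ : L} (h0 : ϖ ≠ 0) (h1 : ‖ϖ‖ < 1) (hmax : ∀ x : L, ‖x‖ < 1 → ‖x‖ ≤ ‖ϖ‖)

/-- the normalised valuation, as a function -/
noncomputable def valFun (x : Lˣ) : ℤ :=
  Classical.choose (exists_zpow_norm_eq h0 h1 hmax x.ne_zero)

lemma norm_eq_zpow_valFun (x : Lˣ) : ‖(x : L)‖ = ‖ϖ‖ ^ valFun h0 h1 hmax x :=
  Classical.choose_spec (exists_zpow_norm_eq h0 h1 hmax x.ne_zero)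

include h0 h1 in
lemma zpow_norm_injective : Function.Injective fun k : ℤ => ‖ϖ‖ ^ k :=
  zpow_right_injective₀ (norm_pos_iff.2 h0) h1.ne

lemma valFun_eq_iff (x : Lˣ) (k : ℤ) : valFun h0 h1 hmax x = k ↔ ‖(x : L)‖ = ‖ϖ‖ ^ k := by
  constructor
  · rintro rfl
    exact norm_eq_zpow_valFun h0 h1 hmax x
  · intro h
    apply zpow_norm_injective h0 h1
    simp only
    rw [← norm_eq_zpow_valFun h0 h1 hmax x, h]

/-- the normalised valuation `Lˣ → ℤ` as an additive homomorphism -/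
noncomputable def valA : Additive Lˣ →+ ℤ where
  toFun x := valFun h0 h1 hmax (Additive.toMul x)
  map_zero' := by
    rw [valFun_eq_iff]
    simp
  map_add' x y := by
    rw [valFun_eq_iff]
    simp only [toMul_add, Units.val_mul, norm_mul]
    rw [zpow_add₀ (norm_pos_iff.2 h0).ne', ← norm_eq_zpow_valFun, ← norm_eq_zpow_valFun]

lemma valA_apply (x : Lˣ) : valA h0 h1 hmax (Additive.ofMul x) = valFun h0 h1 hmax x := rfl

lemma valA_eq_iff (x : Lˣ) (k : ℤ) :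
    valA h0 h1 hmax (Additive.ofMul x) = k ↔ ‖(x : L)‖ = ‖ϖ‖ ^ k :=
  valFun_eq_iff h0 h1 hmax x k

lemma valA_eq_zero_iff (x : Lˣ) : valA h0 h1 hmax (Additive.ofMul x) = 0 ↔ ‖(x : L)‖ = 1 := by
  rw [valA_eq_iff, zpow_zero]

lemma valA_surjective : Function.Surjective (valA h0 h1 hmax) := by
  intro k
  refine ⟨Additive.ofMul ((Units.mk0 ϖ h0) ^ k), ?_⟩
  rw [valA_eq_iff]
  simp

lemma valA_eq_of_norm_eq {x y : Lˣ} (h : ‖(x : L)‖ = ‖(y : L)‖) :
    valA h0 h1 hmax (Additive.ofMul x) = valA h0 h1 hmax (Additive.ofMul y) := by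
  rw [valA_eq_iff, h]
  exact norm_eq_zpow_valFun h0 h1 hmax y

end Val

/-- the group of units of norm one -/
def unitsNormOne (L : Type*) [NormedField L] : Subgroup Lˣ where
  carrier := {u | ‖(u : L)‖ = 1}
  one_mem' := by simp
  mul_mem' := by
    intro a b ha hb
    simp only [Set.mem_setOf_eq] at ha hb ⊢
    rw [Units.val_mul, norm_mul, ha, hb, mul_one]
  inv_mem' := by
    intro a ha
    simp only [Set.mem_setOf_eq] at ha ⊢
    rw [Units.val_inv_eq_inv_val, norm_inv, ha, inv_one]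

omit [IsUltrametricDist L] [ProperSpace L] in
lemma mem_unitsNormOne {u : Lˣ} : u ∈ unitsNormOne L ↔ ‖(u : L)‖ = 1 := Iff.rfl

/-- A subgroup of the norm-one units containing a ball around `1` has finite index in the group
of norm-one units. -/
theorem finite_quotient_of_ball (V : Subgroup Lˣ) {ε : ℝ} (hε : 0 < ε)
    (hV : ∀ u : Lˣ, ‖(u : L) - 1‖ < ε → u ∈ V) :
    Finite (↥(unitsNormOne L) ⧸ V.subgroupOf (unitsNormOne L)) := by
  have hcomp : IsCompact {x : L | ‖x‖ = 1} := by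
    refine IsCompact.of_isClosed_subset (isCompact_closedBall (0 : L) 1) ?_ ?_
    · exact isClosed_eq continuous_norm continuous_const
    · intro x hx
      rw [mem_closedBall_zero_iff]
      exact le_of_eq hx
  obtain ⟨T, hTs, hTfin, hTcov⟩ := hcomp.finite_cover_balls hε
  haveI : Finite T := hTfin
  have hne : ∀ t : T, (t : L) ≠ 0 := by
    intro t h
    have := hTs t.2
    simp only [Set.mem_setOf_eq] at this
    rw [h, norm_zero] at this
    exact zero_ne_one this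
  let f : T → ↥(unitsNormOne L) ⧸ V.subgroupOf (unitsNormOne L) := fun t =>
    QuotientGroup.mk ⟨Units.mk0 (t : L) (hne t), hTs t.2⟩
  refine Finite.of_surjective f ?_
  intro q
  obtain ⟨⟨u, hu⟩, rfl⟩ := QuotientGroup.mk_surjective q
  have hu' : (u : L) ∈ {x : L | ‖x‖ = 1} := hu
  obtain ⟨t, ht, hut⟩ := Set.mem_iUnion₂.1 (hTcov hu')
  refine ⟨⟨t, ht⟩, ?_⟩
  simp only [f]
  rw [QuotientGroup.eq]
  rw [Subgroup.mem_subgroupOf]
  apply hV
  simp only [Subgroup.coe_mul, Subgroup.coe_inv, Units.val_mul, Units.val_inv_eq_inv_val,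
    Units.val_mk0]
  have ht1 : ‖t‖ = 1 := hTs ht
  have ht0 : t ≠ 0 := hne ⟨t, ht⟩
  have e : t⁻¹ * (u : L) - 1 = t⁻¹ * ((u : L) - t) := by
    field_simp
  rw [e, norm_mul, norm_inv, ht1, inv_one, one_mul]
  rw [mem_ball, dist_eq_norm] at hut
  exact hut

end Fermat.Agent.S55.H953
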