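import Fermat.Agent.S55.Herbrand.Cyclic

/-!
# S55 / local norm index: the generic Herbrand computation

`0 → U → B → ℤ → 0` equivariant exact (trivial action on `ℤ`), `V → U` equivariant injective of
finite index, `h⁰(V) = h¹(V) = 1`, `h¹(B) = 1`  ⟹  `h⁰(B) = n`.
-/

set_option autoImplicit false

namespace Fermat.Agent.S55.H953

open Fermat.Agent.S55.Herbrand

variable {AV AU B : Type*} [AddCommGroup AV] [AddCommGroup AU] [AddCommGroup B]

theorem h0_eq_of_units_trivial {σV : AddMonoid.End AV} {σU : AddMonoid.End AU}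
    {σB : AddMonoid.End B} {n : ℕ} (hn : n ≠ 0)
    (hσU : σU ^ n = 1) (hσB : σB ^ n = 1)
    {i₁ : AV →+ AU} (hi₁ : Function.Injective i₁) (hfin : i₁.range.FiniteIndex)
    (hi₁σ : ∀ a, i₁ (σV a) = σU (i₁ a))
    {i₂ : AU →+ B} (hi₂ : Function.Injective i₂) (hi₂σ : ∀ a, i₂ (σU a) = σB (i₂ a))
    {p : B →+ ℤ} (hp : Function.Surjective p) (hex : p.ker = i₂.range)
    (hpσ : ∀ b, p (σB b) = p b)
    (hV0 : h0 σV n = 1) (hV1 : h1 σV n = 1) (hB1 : h1 σB n = 1) :
    h0 σB n = n := by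
  have hVdef : HerbrandDefined σV n := by
    rw [herbrandDefined_iff, hV0, hV1]
    exact ⟨one_ne_zero, one_ne_zero⟩
  have hVq : herbrand σV n = 1 := by
    rw [herbrand_eq_div, hV0, hV1]
    simp
  have hUdef : HerbrandDefined σU n :=
    (herbrandDefined_iff_of_finite_coker hσU hi₁ hfin hi₁σ).1 hVdef
  have hUq : herbrand σU n = 1 := by
    rw [← herbrand_eq_of_finite_coker hσU hi₁ hfin hi₁σ, hVq]
  have hpσ' : ∀ b, p (σB b) = (1 : AddMonoid.End ℤ) (p b) := fun b => hpσ b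
  have hBq : herbrand σB n = herbrand σU n * herbrand (1 : AddMonoid.End ℤ) n :=
    herbrand_mul_of_exact hσB hi₂ hp hex hi₂σ hpσ' hUdef (herbrandDefined_int hn)
  rw [hUq, one_mul, herbrand_int hn, herbrand_eq_div, hB1] at hBq
  simp only [Nat.cast_one, div_one] at hBq
  exact_mod_cast hBq

end Fermat.Agent.S55.H953
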