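import Fermat.Agent.S55.H953.Approx

/-!
# S55 / local norm index: the normal-basis lattice filtration

`K` is a complete ultrametric nontrivially normed field, `L/K` a finite Galois extension which is
a normed field extension.  For the normal basis `b g = g θ` we consider the additive subgroups
`lam ρ = {x | ∀ g, ‖b.repr x g‖ ≤ ρ}` and show that for a generator `σ` of the (cyclic) Galois
group they give a `Filtration` in the sense of `Approx.lean`.
-/

set_option autoImplicit false

namespace Fermat.Agent.S55.H953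

open Module Finset NNReal

variable (K L : Type*) [NontriviallyNormedField K] [IsUltrametricDist K]
  [NormedField L] [NormedAlgebra K L] [FiniteDimensional K L] [IsGalois K L]

/-- The lattice of elements whose normal-basis coordinates have norm `≤ ρ`. -/
noncomputable def lam (ρ : ℝ≥0) : AddSubgroup L where
  carrier := {x | ∀ g, ‖(IsGalois.normalBasis K L).repr x g‖ ≤ ρ}
  zero_mem' := by
    intro g
    simp
  add_mem' := by
    intro x y hx hy g
    simp only [map_add, Finsupp.coe_add, Pi.add_apply]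
    exact (IsUltrametricDist.norm_add_le_max _ _).trans (max_le (hx g) (hy g))
  neg_mem' := by
    intro x hx g
    simpa using hx g

variable {K L}

lemma mem_lam {ρ : ℝ≥0} {x : L} :
    x ∈ lam K L ρ ↔ ∀ g, ‖(IsGalois.normalBasis K L).repr x g‖ ≤ ρ := Iff.rfl

lemma lam_mono {ρ ρ' : ℝ≥0} (h : ρ ≤ ρ') : lam K L ρ ≤ lam K L ρ' :=
  fun _ hx g => (hx g).trans (by exact_mod_cast h)

lemma smul_mem_lam {ρ : ℝ≥0} {x : L} (hx : x ∈ lam K L ρ) (a : K) :
    a • x ∈ lam K L (‖a‖₊ * ρ) := by
  intro g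
  simp only [map_smul, Finsupp.coe_smul, Pi.smul_apply, smul_eq_mul, norm_mul, NNReal.coe_mul,
    coe_nnnorm]
  exact mul_le_mul_of_nonneg_left (hx g) (norm_nonneg a)

lemma basis_mem_lam (g : L ≃ₐ[K] L) : IsGalois.normalBasis K L g ∈ lam K L 1 := by
  classical
  intro h
  rw [Basis.repr_self, Finsupp.single_apply]
  split_ifs <;> simp

omit [IsUltrametricDist K] in
/-- the action of the Galois group on normal-basis coordinates -/
lemma repr_apply_algEquiv (h : L ≃ₐ[K] L) (x : L) (g : L ≃ₐ[K] L) :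
    (IsGalois.normalBasis K L).repr (h x) g = (IsGalois.normalBasis K L).repr x (h⁻¹ * g) := by
  classical
  set b := IsGalois.normalBasis K L with hb
  have hx : x = ∑ k, b.repr x k • b k := (b.sum_repr x).symm
  conv_lhs => rw [hx]
  simp only [map_sum, map_smul]
  have : ∀ k, h (b k) = b (h * k) := by
    intro k
    rw [hb, IsGalois.normalBasis_apply, IsGalois.normalBasis_apply (h * k)]
    rfl
  simp only [this, Basis.repr_self, Finsupp.coe_finsetSum, Finsupp.coe_smul, Finset.sum_apply,
    Pi.smul_apply, smul_eq_mul, Finsupp.single_apply]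
  rw [Finset.sum_eq_single (h⁻¹ * g)]
  · simp
  · intro k _ hk
    have : h * k ≠ g := by
      intro e
      apply hk
      rw [← e]; simp
    simp [this]
  · intro hh
    exact absurd (Finset.mem_univ _) hh

lemma algEquiv_mem_lam {ρ : ℝ≥0} {x : L} (hx : x ∈ lam K L ρ) (h : L ≃ₐ[K] L) :
    h x ∈ lam K L ρ := by
  intro g
  rw [repr_apply_algEquiv]
  exact hx _

variable (K L) in
/-- a bound for the structure constants of the normal basis -/
noncomputable def structBound : ℝ≥0 :=
  Finset.univ.sup fun t : (L ≃ₐ[K] L) × (L ≃ₐ[K] L) × (L ≃ₐ[K] L) =>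
    ‖(IsGalois.normalBasis K L).repr
      (IsGalois.normalBasis K L t.1 * IsGalois.normalBasis K L t.2.1) t.2.2‖₊

variable (K L) in
/-- a bound for the norms of the elements of the normal basis -/
noncomputable def basisBound : ℝ≥0 :=
  Finset.univ.sup fun g : (L ≃ₐ[K] L) => ‖IsGalois.normalBasis K L g‖₊

lemma basis_mul_mem_lam (g h : L ≃ₐ[K] L) :
    IsGalois.normalBasis K L g * IsGalois.normalBasis K L h ∈ lam K L (structBound K L) := by
  intro k
  have := Finset.le_sup (f := fun t : (L ≃ₐ[K] L) × (L ≃ₐ[K] L) × (L ≃ₐ[K] L) =>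
    ‖(IsGalois.normalBasis K L).repr
      (IsGalois.normalBasis K L t.1 * IsGalois.normalBasis K L t.2.1) t.2.2‖₊)
    (Finset.mem_univ (g, h, k))
  exact_mod_cast this

lemma mul_mem_lam {ρ ρ' : ℝ≥0} {x y : L} (hx : x ∈ lam K L ρ) (hy : y ∈ lam K L ρ') :
    x * y ∈ lam K L (structBound K L * ρ * ρ') := by
  classical
  set b := IsGalois.normalBasis K L with hb
  have ex : x = ∑ k, b.repr x k • b k := (b.sum_repr x).symm
  have ey : y = ∑ k, b.repr y k • b k := (b.sum_repr y).symm
  rw [ex, ey, Finset.sum_mul_sum]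
  refine AddSubgroup.sum_mem _ (fun g _ => AddSubgroup.sum_mem _ (fun h _ => ?_))
  have e : b.repr x g • b g * b.repr y h • b h = (b.repr x g * b.repr y h) • (b g * b h) := by
    rw [smul_mul_smul_comm]
  rw [e]
  refine lam_mono ?_ (smul_mem_lam (basis_mul_mem_lam g h) _)
  rw [nnnorm_mul]
  have h1 : ‖b.repr x g‖₊ ≤ ρ := by exact_mod_cast hx g
  have h2 : ‖b.repr y h‖₊ ≤ ρ' := by exact_mod_cast hy h
  calc ‖b.repr x g‖₊ * ‖b.repr y h‖₊ * structBound K L
      ≤ ρ * ρ' * structBound K L := by gcongr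
    _ = structBound K L * ρ * ρ' := by ring

lemma norm_le_of_mem_lam {ρ : ℝ≥0} {x : L} (hx : x ∈ lam K L ρ) :
    ‖x‖ ≤ ρ * basisBound K L := by
  classical
  have : IsUltrametricDist L := IsUltrametricDist.of_normedAlgebra K
  set b := IsGalois.normalBasis K L with hb
  have ex : x = ∑ k, b.repr x k • b k := (b.sum_repr x).symm
  rw [ex]
  refine IsUltrametricDist.norm_sum_le_of_forall_le_of_nonneg (by positivity) (fun g _ => ?_)
  rw [norm_smul]
  have h2 : ‖b g‖₊ ≤ basisBound K L :=
    Finset.le_sup (f := fun g : (L ≃ₐ[K] L) => ‖IsGalois.normalBasis K L g‖₊) (Finset.mem_univ g)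
  have h2' : ‖b g‖ ≤ basisBound K L := by exact_mod_cast h2
  exact mul_le_mul (hx g) h2' (norm_nonneg _) (by positivity)

lemma isClosed_lam [CompleteSpace K] (ρ : ℝ≥0) : IsClosed (lam K L ρ : Set L) := by
  have : (lam K L ρ : Set L) =
      ⋂ g, {x | ‖(IsGalois.normalBasis K L).repr x g‖ ≤ ρ} := by
    ext x
    simp only [SetLike.mem_coe, mem_lam, Set.mem_iInter, Set.mem_ofPred_eq]
  rw [this]
  refine isClosed_iInter (fun g => ?_)
  have hc : Continuous fun x : L => (IsGalois.normalBasis K L).repr x g :=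
    LinearMap.continuous_of_finiteDimensional ((IsGalois.normalBasis K L).coord g)
  exact isClosed_le (continuous_norm.comp hc) continuous_const

lemma isOpen_lam [CompleteSpace K] {ρ : ℝ≥0} (hρ : ρ ≠ 0) : IsOpen (lam K L ρ : Set L) := by
  have : (lam K L ρ : Set L) =
      ⋂ g, {x | ‖(IsGalois.normalBasis K L).repr x g‖ ≤ ρ} := by
    ext x
    simp only [SetLike.mem_coe, mem_lam, Set.mem_iInter, Set.mem_ofPred_eq]
  rw [this]
  refine isOpen_iInter_of_finite (fun g => ?_)
  have hc : Continuous fun x : L => (IsGalois.normalBasis K L).repr x g :=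
    LinearMap.continuous_of_finiteDimensional ((IsGalois.normalBasis K L).coord g)
  have : {x : L | ‖(IsGalois.normalBasis K L).repr x g‖ ≤ ρ} =
      (fun x : L => (IsGalois.normalBasis K L).repr x g) ⁻¹' Metric.closedBall 0 ρ := by
    ext x; simp
  rw [this]
  exact (IsUltrametricDist.isOpen_closedBall 0 (by exact_mod_cast hρ)).preimage hc

/-- every `K`-automorphism of `L` is an isometry -/
lemma norm_algEquiv [CompleteSpace K] (g : L ≃ₐ[K] L) (x : L) : ‖g x‖ = ‖x‖ := by
  rw [NormedAlgebra.norm_eq_spectralNorm K, NormedAlgebra.norm_eq_spectralNorm K x]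
  exact (spectralNorm_eq_of_equiv g x).symm

/-! ### Sums over powers of a generator -/

section Cyclic

variable (σ : L ≃ₐ[K] L) (hσ : ∀ g : L ≃ₐ[K] L, g ∈ Subgroup.zpowers σ)

lemma toRingEquiv_pow_apply (j : ℕ) (x : L) :
    ((σ : L ≃+* L) ^ j) x = (σ ^ j) x := by
  induction j generalizing x with
  | zero => rfl
  | succ j ih =>
    rw [pow_succ, pow_succ]
    change ((σ : L ≃+* L) ^ j) (σ x) = (σ ^ j) (σ x)
    exact ih (σ x)

include hσ in
lemma sum_range_pow_eq_sum_univ {M : Type*} [AddCommMonoid M] (f : (L ≃ₐ[K] L) → M) :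
    ∑ j ∈ range (orderOf σ), f (σ ^ j) = ∑ g, f g := by
  classical
  rw [← IsCyclic.image_range_orderOf hσ, Finset.sum_image]
  intro i hi j hj hij
  exact pow_injOn_Iio_orderOf (by simpa using hi) (by simpa using hj) hij

include hσ in
lemma prod_range_pow_eq_prod_univ {M : Type*} [CommMonoid M] (f : (L ≃ₐ[K] L) → M) :
    ∏ j ∈ range (orderOf σ), f (σ ^ j) = ∏ g, f g := by
  classical
  rw [← IsCyclic.image_range_orderOf hσ, Finset.prod_image]
  intro i hi j hj hij
  exact pow_injOn_Iio_orderOf (by simpa using hi) (by simpa using hj) hij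

include hσ in
lemma apply_eq_of_generator_apply_eq {a : L} (ha : σ a = a) (g : L ≃ₐ[K] L) : g a = a := by
  have h1 : Subgroup.zpowers σ ≤ MulAction.stabilizer (L ≃ₐ[K] L) a := by
    rw [Subgroup.zpowers_le]
    exact ha
  exact h1 (hσ g)

include hσ in
lemma exists_pow_eq (g : L ≃ₐ[K] L) : ∃ k : ℕ, σ ^ k = g := by
  exact mem_powers_iff_mem_zpowers.mpr (hσ g)

include hσ in
/-- coordinates of a `σ`-fixed element are all equal -/
lemma repr_eq_of_fixed {a : L} (ha : σ a = a) (g : L ≃ₐ[K] L) :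
    (IsGalois.normalBasis K L).repr a g = (IsGalois.normalBasis K L).repr a 1 := by
  have h1 : g⁻¹ a = a := apply_eq_of_generator_apply_eq σ hσ ha g⁻¹
  conv_rhs => rw [← h1]
  rw [repr_apply_algEquiv]
  simp

include hσ in
lemma trace_surj_lam {ρ : ℝ≥0} {a : L} (ha : a ∈ lam K L ρ) (hfix : σ a = a) :
    ∃ b ∈ lam K L ρ, ∑ j ∈ range (orderOf σ), ((σ : L ≃+* L) ^ j) b = a := by
  classical
  set B := IsGalois.normalBasis K L with hB
  refine ⟨B.repr a 1 • B 1, ?_, ?_⟩
  · refine lam_mono ?_ (smul_mem_lam (basis_mem_lam 1) _)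
    rw [mul_one]
    exact_mod_cast ha 1
  · simp_rw [toRingEquiv_pow_apply]
    rw [sum_range_pow_eq_sum_univ σ hσ (fun g => g (B.repr a 1 • B 1))]
    conv_rhs => rw [← B.sum_repr a]
    refine Finset.sum_congr rfl (fun g _ => ?_)
    rw [map_smul, repr_eq_of_fixed σ hσ hfix g, hB, IsGalois.normalBasis_apply g]

omit [IsUltrametricDist K] in
lemma sum_repr_trace (a : L) (g : L ≃ₐ[K] L) :
    (IsGalois.normalBasis K L).repr (∑ h : L ≃ₐ[K] L, h a) g =
      ∑ k, (IsGalois.normalBasis K L).repr a k := by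
  classical
  rw [map_sum, Finsupp.coe_finsetSum, Finset.sum_apply]
  simp_rw [repr_apply_algEquiv]
  exact Fintype.sum_equiv ((Equiv.inv _).trans (Equiv.mulRight g)) _ _ (fun h => by simp)

include hσ in
lemma sub_surj_lam {ρ ρ' : ℝ≥0} {a : L} (ha : a ∈ lam K L ρ)
    (htr : ∑ j ∈ range (orderOf σ), ((σ : L ≃+* L) ^ j) a ∈ lam K L ρ') :
    ∃ b ∈ lam K L ρ, σ b - b - a ∈ lam K L ρ' := by
  classical
  set B := IsGalois.normalBasis K L with hB
  simp_rw [toRingEquiv_pow_apply] at htr
  rw [sum_range_pow_eq_sum_univ σ hσ (fun g => g a)] at htr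
  have hs : ‖∑ k, B.repr a k‖ ≤ ρ' := by
    have := htr 1
    rwa [sum_repr_trace a 1] at this
  choose e he using exists_pow_eq σ hσ
  have hpow : ∀ m : ℕ, (σ ^ m) (B 1) = B (σ ^ m) := fun m => by
    rw [hB, IsGalois.normalBasis_apply (σ ^ m)]
  refine ⟨∑ g, B.repr a g • ∑ m ∈ range (e g), (σ ^ m) (B 1), ?_, ?_⟩
  · refine AddSubgroup.sum_mem _ (fun g _ => ?_)
    have h1 : ∑ m ∈ range (e g), (σ ^ m) (B 1) ∈ lam K L 1 := by
      refine AddSubgroup.sum_mem _ (fun m _ => ?_)
      rw [hpow]
      exact basis_mem_lam _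
    refine lam_mono ?_ (smul_mem_lam h1 _)
    rw [mul_one]
    exact_mod_cast ha g
  · have key : σ (∑ g, B.repr a g • ∑ m ∈ range (e g), (σ ^ m) (B 1)) -
        (∑ g, B.repr a g • ∑ m ∈ range (e g), (σ ^ m) (B 1)) =
        a - (∑ k, B.repr a k) • B 1 := by
      rw [map_sum, ← Finset.sum_sub_distrib]
      have : ∀ g, σ (B.repr a g • ∑ m ∈ range (e g), (σ ^ m) (B 1)) -
          B.repr a g • ∑ m ∈ range (e g), (σ ^ m) (B 1) = B.repr a g • B g - B.repr a g • B 1 := by
        intro g
        rw [map_smul, ← smul_sub, ← smul_sub, map_sum, ← Finset.sum_sub_distrib]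
        congr 1
        have h2 : ∀ m, σ ((σ ^ m) (B 1)) - (σ ^ m) (B 1) =
            (fun m => (σ ^ m) (B 1)) (m + 1) - (fun m => (σ ^ m) (B 1)) m := by
          intro m
          simp only [pow_succ']
          rfl
        simp_rw [h2]
        rw [Finset.sum_range_sub (fun m => (σ ^ m) (B 1))]
        simp only [pow_zero, AlgEquiv.one_apply]
        rw [hpow, he]
      simp_rw [this]
      rw [Finset.sum_sub_distrib, B.sum_repr a, Finset.sum_smul]
    rw [key]
    have e2 : a - (∑ k, B.repr a k) • B 1 - a = -((∑ k, B.repr a k) • B 1) := by ring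
    rw [e2]
    refine (lam K L ρ').neg_mem (lam_mono ?_ (smul_mem_lam (basis_mem_lam 1) _))
    rw [mul_one]
    exact_mod_cast hs

/-- the radius of the `0`-th lattice -/
noncomputable def rho0 (K L : Type*) [NontriviallyNormedField K] [IsUltrametricDist K]
    [NormedField L] [NormedAlgebra K L] [FiniteDimensional K L] [IsGalois K L] : ℝ≥0 :=
  (2 * (structBound K L + basisBound K L + 1))⁻¹

lemma rho0_pos : 0 < rho0 K L := by
  unfold rho0
  positivity

lemma structBound_mul_rho0_le : structBound K L * rho0 K L ≤ 2⁻¹ := by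
  unfold rho0
  rw [mul_inv, ← mul_assoc, mul_comm (structBound K L), mul_assoc]
  refine mul_le_of_le_one_right (by positivity) ?_
  rw [← div_eq_mul_inv]
  refine div_le_one_of_le₀ ?_ (by positivity)
  calc structBound K L ≤ structBound K L + (basisBound K L + 1) := le_self_add
    _ = structBound K L + basisBound K L + 1 := by ring

lemma rho0_mul_basisBound_lt : rho0 K L * basisBound K L < 1 := by
  unfold rho0
  rw [mul_inv, mul_assoc]
  have h1 : (structBound K L + basisBound K L + 1)⁻¹ * basisBound K L ≤ 1 := by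
    rw [mul_comm, ← div_eq_mul_inv]
    refine div_le_one_of_le₀ ?_ (by positivity)
    calc basisBound K L ≤ basisBound K L + (structBound K L + 1) := le_self_add
      _ = structBound K L + basisBound K L + 1 := by ring
  calc (2 : ℝ≥0)⁻¹ * ((structBound K L + basisBound K L + 1)⁻¹ * basisBound K L)
      ≤ 2⁻¹ * 1 := by gcongr
    _ < 1 := by rw [mul_one]; exact inv_lt_one_of_one_lt₀ (by norm_num)

/-- **The normal-basis filtration.** -/
noncomputable def normalFiltration [CompleteSpace K] :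
    Filtration L (σ : L ≃+* L) (orderOf σ) where
  Λ i := lam K L (rho0 K L * 2⁻¹ ^ i)
  c i := rho0 K L * 2⁻¹ ^ i * basisBound K L
  anti i := by
    refine lam_mono ?_
    rw [pow_succ, ← mul_assoc]
    exact mul_le_of_le_one_right (by positivity) (by rw [inv_le_one₀] <;> norm_num)
  mul_mem i x y hx hy := by
    refine lam_mono ?_ (mul_mem_lam hx hy)
    rw [pow_zero, mul_one, pow_succ]
    calc structBound K L * rho0 K L * (rho0 K L * 2⁻¹ ^ i)
        ≤ 2⁻¹ * (rho0 K L * 2⁻¹ ^ i) := by gcongr; exact structBound_mul_rho0_le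
      _ = rho0 K L * (2⁻¹ ^ i * 2⁻¹) := by ring
  closed i := isClosed_lam _
  norm_le i x hx := by
    have := norm_le_of_mem_lam hx
    exact_mod_cast this
  c_tendsto := by
    have h : Filter.Tendsto (fun i : ℕ => ((2 : ℝ)⁻¹) ^ i) Filter.atTop (nhds 0) :=
      tendsto_pow_atTop_nhds_zero_of_lt_one (by norm_num) (by norm_num)
    have h2 := (h.const_mul (rho0 K L : ℝ)).mul_const (basisBound K L : ℝ)
    simp only [mul_zero, zero_mul] at h2
    refine h2.congr (fun i => ?_)
    push_cast
    ring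
  c_zero_lt := by
    have := rho0_mul_basisBound_lt (K := K) (L := L)
    rw [pow_zero, mul_one]
    exact_mod_cast this
  stable i x hx := algEquiv_mem_lam hx σ
  isom x := norm_algEquiv σ x
  pow_eq x := by
    rw [toRingEquiv_pow_apply, pow_orderOf_eq_one]
    rfl
  hTr i a ha hfix := by
    obtain ⟨b, hb, hb'⟩ := trace_surj_lam σ hσ ha hfix
    refine ⟨b, hb, ?_⟩
    rw [hb', sub_self]
    exact AddSubgroup.zero_mem _
  hSub i a ha htr := sub_surj_lam σ hσ ha htr

end Cyclic

end Fermat.Agent.S55.H953
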