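import Fermat.Agent.S55.H953.Generic
import Fermat.Agent.S55.H953.Discrete
import Fermat.Agent.S55.H953.Lattice

/-!
# S55 / local norm index theorem for cyclic extensions

`K` a complete ultrametric nontrivially normed field, `L/K` a finite cyclic Galois extension
(normed), `L` locally compact.  Then `[Kˣ : N_{L/K} Lˣ] = [L : K]`.
-/

set_option autoImplicit false

namespace Fermat.Agent.S55.H953

open Fermat.Agent.S55.Herbrand Finset

section GroupEnd

variable {G : Type*} [CommGroup G]

/-- the additive endomorphism induced by a monoid endomorphism -/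
def endA (φ : G →* G) : AddMonoid.End (Additive G) := MonoidHom.toAdditive φ

lemma endA_apply (φ : G →* G) (x : Additive G) :
    endA φ x = Additive.ofMul (φ (Additive.toMul x)) := rfl

lemma endA_pow_apply (φ : G →* G) (j : ℕ) (x : Additive G) :
    (endA φ ^ j) x = Additive.ofMul ((⇑φ)^[j] (Additive.toMul x)) := by
  induction j generalizing x with
  | zero => rfl
  | succ j ih =>
    rw [pow_succ, Function.iterate_succ_apply]
    change (endA φ ^ j) (endA φ x) = _
    rw [ih]
    rfl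

lemma endA_pow_eq_one (φ : G →* G) (n : ℕ) (h : ∀ x, (⇑φ)^[n] x = x) : endA φ ^ n = 1 := by
  ext x
  rw [endA_pow_apply, h]
  rfl

lemma delta_endA_apply (φ : G →* G) (x : Additive G) :
    delta (endA φ) x = Additive.ofMul (φ (Additive.toMul x) / Additive.toMul x) := rfl

lemma normN_endA_apply (φ : G →* G) (n : ℕ) (x : Additive G) :
    normN (endA φ) n x = Additive.ofMul (∏ j ∈ range n, (⇑φ)^[j] (Additive.toMul x)) := by
  rw [normN_apply]
  simp_rw [endA_pow_apply]
  rw [ofMul_prod]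

/-- restriction of an endomorphism to a stable subgroup -/
def resHom (φ : G →* G) (H : Subgroup G) (hH : ∀ x ∈ H, φ x ∈ H) : ↥H →* ↥H :=
  (φ.comp H.subtype).codRestrict H (fun x => hH x x.2)

lemma coe_resHom (φ : G →* G) (H : Subgroup G) (hH : ∀ x ∈ H, φ x ∈ H) (x : ↥H) :
    (resHom φ H hH x : G) = φ x := rfl

lemma coe_resHom_iterate (φ : G →* G) (H : Subgroup G) (hH : ∀ x ∈ H, φ x ∈ H) (j : ℕ)
    (x : ↥H) : (((⇑(resHom φ H hH))^[j] x : ↥H) : G) = (⇑φ)^[j] x := by
  induction j generalizing x with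
  | zero => rfl
  | succ j ih =>
    rw [Function.iterate_succ_apply, Function.iterate_succ_apply, ih]
    rfl

/-- `h⁰ = 1` for a stable subgroup on which fixed elements are norms -/
lemma h0_resHom_eq_one (φ : G →* G) (n : ℕ) (H : Subgroup G) (hH : ∀ x ∈ H, φ x ∈ H)
    (h : ∀ u ∈ H, φ u = u → ∃ y ∈ H, ∏ j ∈ range n, (⇑φ)^[j] y = u) :
    h0 (endA (resHom φ H hH)) n = 1 := by
  rw [h0_eq_relIndex, AddSubgroup.relIndex_eq_one]
  intro x hx
  rw [AddMonoidHom.mem_ker, delta_endA_apply] at hx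
  have hx' : resHom φ H hH (Additive.toMul x) / Additive.toMul x = 1 := ofMul_eq_zero.1 hx
  have hfix : φ (Additive.toMul x : ↥H) = (Additive.toMul x : ↥H) := by
    have := congrArg (Subtype.val) (div_eq_one.1 hx')
    simpa [coe_resHom] using this
  obtain ⟨y, hy, hyx⟩ := h _ (Additive.toMul x).2 hfix
  refine ⟨Additive.ofMul ⟨y, hy⟩, ?_⟩
  rw [normN_endA_apply]
  apply Additive.toMul.injective
  apply Subtype.ext
  rw [toMul_ofMul, Subgroup.val_finsetProd]
  simp only [coe_resHom_iterate]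
  exact hyx

/-- `h¹ = 1` for a stable subgroup on which elements of norm one are of the form `φ y / y` -/
lemma h1_resHom_eq_one (φ : G →* G) (n : ℕ) (H : Subgroup G) (hH : ∀ x ∈ H, φ x ∈ H)
    (h : ∀ u ∈ H, ∏ j ∈ range n, (⇑φ)^[j] u = 1 → ∃ y ∈ H, φ y / y = u) :
    h1 (endA (resHom φ H hH)) n = 1 := by
  rw [h1_eq_relIndex, AddSubgroup.relIndex_eq_one]
  intro x hx
  rw [AddMonoidHom.mem_ker, normN_endA_apply] at hx
  have hx' : ∏ j ∈ range n, (⇑(resHom φ H hH))^[j] (Additive.toMul x) = 1 :=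
    ofMul_eq_zero.1 hx
  have hN : ∏ j ∈ range n, (⇑φ)^[j] (Additive.toMul x : ↥H) = 1 := by
    have := congrArg (Subtype.val) hx'
    rw [Subgroup.val_finsetProd] at this
    simpa only [coe_resHom_iterate, Subgroup.coe_one] using this
  obtain ⟨y, hy, hyx⟩ := h _ (Additive.toMul x).2 hN
  refine ⟨Additive.ofMul ⟨y, hy⟩, ?_⟩
  rw [delta_endA_apply]
  apply Additive.toMul.injective
  apply Subtype.ext
  simp only [toMul_ofMul]
  exact hyx

end GroupEnd

lemma exists_norm_lt_one_L (K L : Type*) [NontriviallyNormedField K] [NormedField L]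
    [NormedAlgebra K L] : ∃ x : L, x ≠ 0 ∧ ‖x‖ < 1 := by
  obtain ⟨x, hx0, hx1⟩ := NormedField.exists_norm_lt_one K
  refine ⟨algebraMap K L x, ?_, ?_⟩
  · rw [Ne, map_eq_zero]
    exact norm_pos_iff.1 hx0
  · rw [norm_algebraMap']
    exact hx1

section Local

variable {K L : Type} [NontriviallyNormedField K] [IsUltrametricDist K] [CompleteSpace K]
  [NormedField L] [NormedAlgebra K L] [FiniteDimensional K L] [IsGalois K L]
  (σ : L ≃ₐ[K] L) (hσ : ∀ g : L ≃ₐ[K] L, g ∈ Subgroup.zpowers σ)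

/-- `σ` acting on the units of `L` -/
def sigU : Lˣ →* Lˣ := Units.map (σ : L →* L)

omit [IsUltrametricDist K] [CompleteSpace K] [FiniteDimensional K L] [IsGalois K L] in
lemma coe_sigU (u : Lˣ) : ((sigU σ u : Lˣ) : L) = σ (u : L) := rfl

omit [IsUltrametricDist K] [CompleteSpace K] [FiniteDimensional K L] [IsGalois K L] in
lemma coe_sigU_iterate (j : ℕ) (u : Lˣ) : (((⇑(sigU σ))^[j] u : Lˣ) : L) = (σ ^ j) (u : L) := by
  induction j generalizing u with
  | zero => rfl
  | succ j ih =>
    rw [Function.iterate_succ_apply, ih, pow_succ]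
    rfl

omit [IsUltrametricDist K] [CompleteSpace K] [FiniteDimensional K L] [IsGalois K L] in
lemma sigU_iterate_orderOf (u : Lˣ) : (⇑(sigU σ))^[orderOf σ] u = u := by
  apply Units.ext
  rw [coe_sigU_iterate, pow_orderOf_eq_one]
  rfl

omit [IsUltrametricDist K] [CompleteSpace K] [FiniteDimensional K L] [IsGalois K L] in
lemma coe_prod_sigU_iterate (n : ℕ) (u : Lˣ) :
    ((∏ j ∈ range n, (⇑(sigU σ))^[j] u : Lˣ) : L) = ∏ j ∈ range n, (σ ^ j) (u : L) := by
  rw [Units.coe_prod]
  simp_rw [coe_sigU_iterate]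

lemma sigU_mem_unitsNormOne (u : Lˣ) (hu : u ∈ unitsNormOne L) : sigU σ u ∈ unitsNormOne L := by
  rw [mem_unitsNormOne] at hu ⊢
  rw [coe_sigU, norm_algEquiv, hu]

/-- the subgroup `V = 1 + Λ₀` of `Lˣ` -/
noncomputable def subV [ProperSpace L] : Subgroup Lˣ where
  carrier := {u | (u : L) - 1 ∈ (normalFiltration σ hσ).Λ 0}
  one_mem' := (normalFiltration σ hσ).V_one 0
  mul_mem' := by
    intro a b ha hb
    exact (normalFiltration σ hσ).V_mul ha hb
  inv_mem' := by
    intro a ha
    have := (normalFiltration σ hσ).V_inv ha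
    simpa using this

variable [ProperSpace L]

lemma mem_subV {u : Lˣ} : u ∈ subV σ hσ ↔ (u : L) - 1 ∈ (normalFiltration σ hσ).Λ 0 := Iff.rfl

lemma sigU_mem_subV (u : Lˣ) (hu : u ∈ subV σ hσ) : sigU σ u ∈ subV σ hσ := by
  rw [mem_subV] at hu ⊢
  have := (normalFiltration σ hσ).V_stable hu 1
  rw [coe_sigU]
  simpa using this

lemma subV_le : subV σ hσ ≤ unitsNormOne L := by
  intro u hu
  rw [mem_subV] at hu
  rw [mem_unitsNormOne]
  have : IsUltrametricDist L := IsUltrametricDist.of_normedAlgebra K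
  have h1 : ‖(u : L) - 1‖ < 1 := (normalFiltration σ hσ).norm_lt_one hu
  have h2 : ‖(u : L)‖ = ‖((u : L) - 1) + 1‖ := by rw [sub_add_cancel]
  rw [h2, IsUltrametricDist.norm_add_eq_max_of_norm_ne_norm (by rw [norm_one]; exact h1.ne),
    norm_one, max_eq_right h1.le]

lemma exists_ball_subV : ∃ ε : ℝ, 0 < ε ∧ ∀ u : Lˣ, ‖(u : L) - 1‖ < ε → u ∈ subV σ hσ := by
  have hopen : IsOpen ((normalFiltration σ hσ).Λ 0 : Set L) := by
    change IsOpen (lam K L (rho0 K L * 2⁻¹ ^ 0) : Set L)
    exact isOpen_lam (by rw [pow_zero, mul_one]; exact rho0_pos.ne')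
  obtain ⟨ε, hε, hball⟩ := Metric.isOpen_iff.1 hopen 0 ((normalFiltration σ hσ).Λ 0).zero_mem
  refine ⟨ε, hε, fun u hu => ?_⟩
  rw [mem_subV]
  apply hball
  rwa [mem_ball_zero_iff]

omit [ProperSpace L] [IsUltrametricDist K] [CompleteSpace K] [IsGalois K L] in
lemma orderOf_ne_zero_gen : orderOf σ ≠ 0 :=
  (orderOf_pos σ).ne'

omit [ProperSpace L] [CompleteSpace K] in
include hσ in
/-- Hilbert 90 in the form `h¹(Lˣ) = 1`. -/
lemma h1_sigU_eq_one : h1 (endA (sigU σ)) (orderOf σ) = 1 := by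
  rw [h1_eq_relIndex, AddSubgroup.relIndex_eq_one]
  intro x hx
  rw [AddMonoidHom.mem_ker, normN_endA_apply] at hx
  have hx' : ∏ j ∈ range (orderOf σ), (⇑(sigU σ))^[j] (Additive.toMul x) = 1 :=
    ofMul_eq_zero.1 hx
  set u : Lˣ := Additive.toMul x with hu
  have hprod : ∏ j ∈ range (orderOf σ), (σ ^ j) (u : L) = 1 := by
    rw [← coe_prod_sigU_iterate, hx']
    rfl
  have hnorm : Algebra.norm K (u : L) = 1 := by
    apply (algebraMap K L).injective
    rw [Algebra.norm_eq_prod_automorphisms, map_one,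
      ← prod_range_pow_eq_prod_univ σ hσ (fun g => g (u : L))]
    exact hprod
  have : IsCyclic (L ≃ₐ[K] L) := ⟨σ, hσ⟩
  obtain ⟨y, hy⟩ := groupCohomology.exists_div_of_norm_eq_one hσ hnorm
  refine ⟨Additive.ofMul y⁻¹, ?_⟩
  rw [delta_endA_apply]
  apply Additive.toMul.injective
  apply Units.ext
  simp only [toMul_ofMul, Units.val_div_eq_div_val, coe_sigU, Units.val_inv_eq_inv_val, map_inv₀]
  rw [← hy]
  have hy0 : (y : L) ≠ 0 := y.ne_zero
  have hσy0 : σ (y : L) ≠ 0 := by simpa using hy0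
  field_simp

include hσ in
/-- **The Herbrand computation**: `h⁰(Lˣ) = [ker(σ - 1) : im N] = n`. -/
theorem h0_sigU_eq : h0 (endA (sigU σ)) (orderOf σ) = orderOf σ := by
  have hUL : IsUltrametricDist L := IsUltrametricDist.of_normedAlgebra K
  obtain ⟨ϖ, h0, h1, hmax⟩ := exists_uniformizer (exists_norm_lt_one_L K L)
  set F := normalFiltration σ hσ with hF
  have hU : ∀ x ∈ unitsNormOne L, sigU σ x ∈ unitsNormOne L := sigU_mem_unitsNormOne σ
  have hV : ∀ x ∈ subV σ hσ, sigU σ x ∈ subV σ hσ := sigU_mem_subV σ hσ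
  have hVU : subV σ hσ ≤ unitsNormOne L := subV_le σ hσ
  refine h0_eq_of_units_trivial (σV := endA (resHom (sigU σ) (subV σ hσ) hV))
    (σU := endA (resHom (sigU σ) (unitsNormOne L) hU))
    (i₁ := MonoidHom.toAdditive (Subgroup.inclusion hVU))
    (i₂ := MonoidHom.toAdditive (unitsNormOne L).subtype)
    (p := valA h0 h1 hmax) (orderOf_ne_zero_gen σ) ?_ ?_ ?_ ?_ ?_ ?_ ?_ ?_ ?_ ?_ ?_ ?_
    (h1_sigU_eq_one σ hσ)
  · -- σU ^ n = 1
    refine endA_pow_eq_one _ _ (fun x => ?_)
    apply Subtype.ext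
    rw [coe_resHom_iterate, sigU_iterate_orderOf]
  · -- σB ^ n = 1
    exact endA_pow_eq_one _ _ (sigU_iterate_orderOf σ)
  · -- i₁ injective
    intro x y hxy
    exact Additive.toMul.injective (Subgroup.inclusion_injective hVU hxy)
  · -- finite index
    obtain ⟨ε, hε, hball⟩ := exists_ball_subV σ hσ
    have hfin := finite_quotient_of_ball (subV σ hσ) hε hball
    have hrange : (MonoidHom.toAdditive (Subgroup.inclusion hVU)).range =
        Subgroup.toAddSubgroup ((subV σ hσ).subgroupOf (unitsNormOne L)) := by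
      ext x
      constructor
      · rintro ⟨y, rfl⟩
        exact (Additive.toMul y).2
      · intro hx
        exact ⟨Additive.ofMul ⟨(Additive.toMul x : ↥(unitsNormOne L)), hx⟩, rfl⟩
    rw [hrange]
    constructor
    rw [Subgroup.index_toAddSubgroup]
    exact Subgroup.index_ne_zero_of_finite
  · intro a; rfl
  · -- i₂ injective
    intro x y hxy
    exact Additive.toMul.injective (Subtype.val_injective hxy)
  · intro a; rfl
  · exact valA_surjective h0 h1 hmax
  · -- exactness
    ext x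
    rw [AddMonoidHom.mem_ker]
    constructor
    · intro hx
      have : ‖((Additive.toMul x : Lˣ) : L)‖ = 1 := (valA_eq_zero_iff h0 h1 hmax _).1 hx
      exact ⟨Additive.ofMul ⟨Additive.toMul x, this⟩, rfl⟩
    · rintro ⟨y, rfl⟩
      exact (valA_eq_zero_iff h0 h1 hmax _).2 (Additive.toMul y).2
  · -- valuation is σ-invariant
    intro b
    exact valA_eq_of_norm_eq h0 h1 hmax (norm_algEquiv σ _)
  · -- h⁰(V) = 1
    refine h0_resHom_eq_one _ _ _ _ (fun u hu hfix => ?_)
    have hfix' : (σ : L ≃+* L) (u : L) = (u : L) := congrArg Units.val hfix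
    obtain ⟨y, hy, hyu⟩ := F.exists_nm_eq hu hfix'
    have hy0 : y ≠ 0 := F.V_ne_zero hy
    refine ⟨Units.mk0 y hy0, hy, ?_⟩
    apply Units.ext
    rw [coe_prod_sigU_iterate, Units.val_mk0, ← hyu]
    unfold Filtration.nm
    simp_rw [toRingEquiv_pow_apply]
  · -- h¹(V) = 1
    refine h1_resHom_eq_one _ _ _ _ (fun u hu hN => ?_)
    have hN' : F.nm (u : L) = 1 := by
      unfold Filtration.nm
      simp_rw [toRingEquiv_pow_apply]
      rw [← coe_prod_sigU_iterate, hN]
      rfl
    obtain ⟨y, hy, hyu⟩ := F.exists_div_eq hu hN'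
    have hy0 : y ≠ 0 := F.V_ne_zero hy
    refine ⟨Units.mk0 y hy0, hy, ?_⟩
    apply Units.ext
    rw [Units.val_div_eq_div_val, coe_sigU, Units.val_mk0]
    exact hyu

omit [ProperSpace L] [CompleteSpace K] [IsUltrametricDist K] in
include hσ in
lemma ker_delta_sigU :
    AddMonoidHom.ker (delta (endA (sigU σ))) =
      Subgroup.toAddSubgroup ((⊤ : Subgroup Kˣ).map (Units.map (algebraMap K L : K →* L))) := by
  ext x
  rw [AddMonoidHom.mem_ker, delta_endA_apply]
  constructor
  · intro hx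
    have hx' : sigU σ (Additive.toMul x) / Additive.toMul x = 1 := ofMul_eq_zero.1 hx
    have hfix : σ ((Additive.toMul x : Lˣ) : L) = ((Additive.toMul x : Lˣ) : L) :=
      congrArg Units.val (div_eq_one.1 hx')
    have hall : ∀ g : L ≃ₐ[K] L, g ((Additive.toMul x : Lˣ) : L) = ((Additive.toMul x : Lˣ) : L) := by
      intro g
      have h1 : Subgroup.zpowers σ ≤
          MulAction.stabilizer (L ≃ₐ[K] L) ((Additive.toMul x : Lˣ) : L) := by
        rw [Subgroup.zpowers_le]
        exact hfix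
      exact h1 (hσ g)
    have hbot : ((Additive.toMul x : Lˣ) : L) ∈ (⊥ : IntermediateField K L) :=
      (IsGalois.mem_bot_iff_fixed _).2 hall
    obtain ⟨a, ha⟩ := IntermediateField.mem_bot.1 hbot
    have ha0 : a ≠ 0 := by
      rintro rfl
      rw [map_zero] at ha
      exact (Additive.toMul x : Lˣ).ne_zero ha.symm
    refine ⟨Units.mk0 a ha0, Subgroup.mem_top _, ?_⟩
    apply Units.ext
    exact ha
  · rintro ⟨a, -, ha⟩
    apply ofMul_eq_zero.2
    rw [div_eq_one]
    apply Units.ext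
    rw [coe_sigU]
    have : ((Additive.toMul x : Lˣ) : L) = algebraMap K L (a : K) := by
      have := congrArg Units.val ha
      exact this.symm
    rw [this]
    exact σ.commutes _

omit [ProperSpace L] [CompleteSpace K] in
include hσ in
lemma range_normN_sigU :
    AddMonoidHom.range (normN (endA (sigU σ)) (orderOf σ)) =
      Subgroup.toAddSubgroup
        ((Units.map (Algebra.norm K : L →* K)).range.map
          (Units.map (algebraMap K L : K →* L))) := by
  have key : ∀ u : Lˣ, ∏ j ∈ range (orderOf σ), (⇑(sigU σ))^[j] u =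
      Units.map (algebraMap K L : K →* L) (Units.map (Algebra.norm K : L →* K) u) := by
    intro u
    apply Units.ext
    rw [coe_prod_sigU_iterate]
    change _ = algebraMap K L (Algebra.norm K (u : L))
    rw [Algebra.norm_eq_prod_automorphisms,
      ← prod_range_pow_eq_prod_univ σ hσ (fun g => g (u : L))]
  ext x
  constructor
  · rintro ⟨y, rfl⟩
    rw [normN_endA_apply, key]
    exact ⟨_, ⟨Additive.toMul y, rfl⟩, rfl⟩
  · rintro ⟨_, ⟨y, rfl⟩, hy⟩
    refine ⟨Additive.ofMul y, ?_⟩
    rw [normN_endA_apply]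
    apply Additive.toMul.injective
    rw [toMul_ofMul, toMul_ofMul, key]
    exact hy

/-- **Local norm index theorem** (normed form): for a finite cyclic extension `L/K` of
locally compact ultrametric normed fields, `[Kˣ : N(Lˣ)] = [L : K]`. -/
theorem norm_index_eq_finrank_of_normed [IsCyclic (L ≃ₐ[K] L)] :
    (Units.map (Algebra.norm K : L →* K)).range.index = Module.finrank K L := by
  obtain ⟨σ, hσ⟩ := IsCyclic.exists_generator (α := L ≃ₐ[K] L)
  have h := h0_sigU_eq σ hσ
  rw [h0_eq_relIndex, ker_delta_sigU σ hσ, range_normN_sigU σ hσ,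
    Subgroup.relIndex_toAddSubgroup] at h
  have hinj : Function.Injective (Units.map (algebraMap K L : K →* L)) :=
    Units.map_injective (algebraMap K L).injective
  rw [Subgroup.relIndex_map_map_of_injective _ _ hinj, Subgroup.relIndex_top_right] at h
  rw [h, orderOf_eq_card_of_forall_mem_zpowers hσ, IsGalois.card_aut_eq_finrank]

end Local

end Fermat.Agent.S55.H953
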